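/-
S55 / B / Trans / LocHyp  (task S55/T-LocHyp)
The numerical local hypothesis `LocalHyp` (L/Duality/Defs.lean) for the decomposition groups `Dq q`.

PROOF.  `D := locDatum p q : LocalDatum p ↥(Dq q) (Lall.sub (Dq q))` (L/Bridge.lean), `D.μ = rsub (mu p) (Dq q)` (rfl),
`D.n = locExp q p (Dq q) = if q = p then ((Dq q).subgroupOf (Dq q)).index else 0 = if q = p then 1 else 0`
(`locDatumW_n`, `Places.locExp`, `Subgroup.subgroupOf_self`, `Subgroup.index_top`).
* `ω_open`: `(cycloChar p).ker` is `Lall`-open (`LS_le_Lall _ (LS_isOpen_ker_cycloChar p {pPrime p} (by simp))` of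
  Z/ArithDatum.lean, or `D.isOpen_ker_μ`); `Levels.sub` is `Levels.comap` along `subtype`:
  `⟨(cycloChar p).ker, _, fun g hg => hg⟩`.
* `h1`, `h2`: for `W` open, `W ≤ ker`: `D' := D.res W hW : LocalDatum p ↥W ((Lall.sub (Dq q)).sub W)` (L/Restrict.lean),
  `D'.μ = rsub (rsub (mu p) (Dq q)) W`, `D'.n = D.n * W.index` (`LocalDatum.res_n`), `D'.IsSplit` since `mu p g a = cycloChar p g * a`
  (`mu_apply`) and `cycloChar p g = 1` on `W`; `D'.μ = trivF p W` (`eq_trivial_of_forall`, L/Duality/Triv.lean, or `ext`);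
  `D'.finrank_H1_μ hs` (L/Kummer.lean), `D'.finrank_H2_μ_of_split hs hp2` (L/H2mu.lean).
-/
import Fermat.Agent.S55.Z.TargetL
import Fermat.Agent.S55.Z.ArithDatum
import Fermat.Agent.S55.L.Duality.Triv

set_option autoImplicit false

noncomputable section

namespace Fermat.Agent.S55

open Places ExtCitation Module

variable {p : ℕ} [Fact p.Prime]

theorem loc_hyp (hp2 : p ≠ 2) (q : ℕ) [Fact q.Prime] :
    LocalHyp p (Lall.sub (Dq q)) ((cycloChar p).comp (Dq q).subtype) (if q = p then 1 else 0) := by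
  have hn : (locDatum p q).n = if q = p then 1 else 0 := by
    show locExp q p (Dq q) = _
    unfold Places.locExp
    rw [Subgroup.subgroupOf_self, Subgroup.index_top]
  have key : ∀ W : Subgroup ↥(Dq q), (Lall.sub (Dq q)).IsOpen W →
      W ≤ ((cycloChar p).comp (Dq q).subtype).ker →
      ∃ D' : LocalDatum p ↥W ((Lall.sub (Dq q)).sub W), D'.IsSplit ∧ D'.μ = trivF p W ∧
        D'.n = (if q = p then 1 else 0) * W.index := by
    intro W hW hker
    have hs : ((locDatum p q).res W hW).IsSplit := by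
      intro g x
      have h1 : cycloChar p ((g : ↥(Dq q)) : GQ) = 1 := hker g.2
      show mu p ((g : ↥(Dq q)) : GQ) x = x
      rw [mu_apply, h1]
      simp
    exact ⟨(locDatum p q).res W hW, hs, hs.μ_eq, by rw [LocalDatum.res_n, hn]⟩
  refine ⟨?_, ?_, ?_⟩
  · exact ⟨(cycloChar p).ker, LS_le_Lall _ (LS_isOpen_ker_cycloChar p {pPrime p} (by simp)),
      fun g hg => hg⟩
  · intro W hW hker
    obtain ⟨D', hs, hμ, hn'⟩ := key W hW hker
    rw [← hμ, D'.finrank_H1_μ hs, hn']
  · intro W hW hker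
    obtain ⟨D', hs, hμ, hn'⟩ := key W hW hker
    rw [← hμ, D'.finrank_H2_μ_of_split hs hp2]

end Fermat.Agent.S55

end
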