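/-
S55 / B / Trans / Glue  (task S55/T-Glue)
`TransHyp` for the arithmetic datum, and the statements (FIN), (bE) of Z/TargetB.lean.

PROOF.
* `arith_ShaU`, `arith_nPl`: unfold (`Datum.ShaU`, `B.ShaU`, `Datum.nPl`, `B.nPl`).  `(arithDatum p S hpS).ι = ↥S`,
  `(arithDatum ..).D v = DqP v.1`, `Datum.Dg 𝒜 v g = G.Dg v.1 g` (both are `(Dq q).map (MulAut.conj g).toMonoidHom`, see
  G/BridgeDefs.lean; probably `rfl`), `Datum.locU 𝒜 ρ h = B.Pair.locS S ρ h` (`rfl`); `⨅ v : ↥S, f v = ⨅ q, ⨅ (_ : q ∈ S), f q` is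
  `iInf_subtype`; `∑ v : ↥S, f v = ∑ q ∈ S, f q` is `Finset.sum_coe_sort S f` (or `Finset.sum_attach`).
* `arith_transHyp`:
  - `loc v`: `loc_hyp hp2 (v.1 : ℕ)` with `haveI : Fact (v.1 : ℕ).Prime := ⟨v.1.2⟩` (`DqP` unfolds to `Dq`);
    `(v.1 : ℕ) = p ↔ v.1 = pPrime p` (`Subtype.ext_iff`; `pPrime p = ⟨p, Fact.out⟩`).
  - `sum_n`: `Finset.sum_ite_eq`-type (`Fintype.sum_eq_single ⟨pPrime p, hpS⟩`).
  - `num`: `B.num hp2 S hpS U hU hω`, after rewriting `(arithDatum p S hpS).mu = mu p` (`arithDatum_mu`; it is NOT rfl: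
    `rw [arithDatum_mu]` may fail because of dependent types; then generalise: prove the statement for all `μ'` with `μ' = mu p`
    and `subst`, as in `Z/Axioms.lean` (`exists_lam_package`)), `arith_ShaU`, `arith_nPl`.
* the three final statements: `(arith_transHyp hp2 S hpS).fin1 ρ`, `.fin2 ρ`, `.bE lam' G1' U hU hω`
  (again transport `lam`, `G1` along `arithDatum_mu`).
-/
import Fermat.Agent.S55.B.Num
import Fermat.Agent.S55.B.Trans.LocHyp
import Fermat.Agent.S55.B.Trans.BE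

set_option autoImplicit false

noncomputable section

namespace Fermat.Agent.S55

open Places ExtCitation Module

variable {p : ℕ} [Fact p.Prime] (hp2 : p ≠ 2) (S : Finset Nat.Primes) (hpS : pPrime p ∈ S)

theorem arith_ShaU {X : Type} [AddCommGroup X] [Module (ZMod p) X]
    (ρ : Representation (ZMod p) GQ X) (U : Subgroup GQ) :
    (arithDatum p S hpS).ShaU ρ U = B.ShaU S ρ U := by
  unfold Datum.ShaU B.ShaU
  exact iInf_subtype (p := fun q : Nat.Primes => q ∈ S)
    (f := fun v : ↥S => ⨅ g : GQ,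
      LinearMap.ker (B.Pair.locS S ρ (inf_le_right : G.Dg v.1 g ⊓ U ≤ U)).map2)

theorem arith_nPl (U : Subgroup GQ) : (arithDatum p S hpS).nPl U = B.nPl S U := by
  unfold Datum.nPl B.nPl
  exact Finset.sum_coe_sort S
    (fun q => Nat.card (MulAction.orbitRel.Quotient ↥(DqP q) (GQ ⧸ U)))

open Classical in
include hp2 in
theorem arith_transHyp :
    TransHyp (arithDatum p S hpS) (fun v => if v.1 = pPrime p then 1 else 0) := by
  refine ⟨?_, ?_, ?_⟩
  · intro v
    haveI : Fact (v.1 : ℕ).Prime := ⟨v.1.2⟩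
    have h := loc_hyp hp2 (v.1 : ℕ)
    have hiff : (v.1 : ℕ) = p ↔ v.1 = pPrime p :=
      ⟨fun h' => Subtype.ext h', fun h' => congrArg Subtype.val h'⟩
    have e : (if (v.1 : ℕ) = p then 1 else 0 : ℕ) = (if v.1 = pPrime p then 1 else 0) := by
      by_cases hv : (v.1 : ℕ) = p
      · rw [if_pos hv, if_pos (hiff.mp hv)]
      · rw [if_neg hv, if_neg (fun h' => hv (hiff.mpr h'))]
    rw [e] at h
    exact h
  · rw [Fintype.sum_eq_single (⟨pPrime p, hpS⟩ : ↥S)]
    · simp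
    · intro v hv
      exact if_neg (fun h' => hv (Subtype.ext h'))
  · intro U hU hω
    have key : ∀ μ' : Representation (ZMod p) GQ (ZMod p), μ' = mu p →
        FiniteDimensional (ZMod p) (H1 ((LS S).sub U) (rsub μ' U)) ∧
        FiniteDimensional (ZMod p) ↥((arithDatum p S hpS).ShaU μ' U) ∧
        2 * (finrank (ZMod p) ↥((arithDatum p S hpS).ShaU μ' U) + (arithDatum p S hpS).nPl U)
          + U.index ≤ 2 * finrank (ZMod p) (H1 ((LS S).sub U) (rsub μ' U)) := by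
      rintro _ rfl
      rw [arith_ShaU, arith_nPl]
      exact B.num hp2 S hpS U hU hω
    exact key _ (arithDatum_mu p S hpS)

section
variable {X : Type} [AddCommGroup X] [Module (ZMod p) X] [FiniteDimensional (ZMod p) X]

include hp2 hpS in
/-- (FIN) -/
theorem trans_fin1 (ρ : Representation (ZMod p) GQ X) [Smooth (LS S) ρ] :
    FiniteDimensional (ZMod p) (H1 (LS S) ρ) :=
  (arith_transHyp hp2 S hpS).fin1 ρ

include hp2 hpS in
/-- (FIN) -/
theorem trans_fin2 (ρ : Representation (ZMod p) GQ X) [Smooth (LS S) ρ] :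
    FiniteDimensional (ZMod p) (H2 (LS S) ρ) :=
  (arith_transHyp hp2 S hpS).fin2 ρ

end

include hp2 in
/-- (bE), from reciprocity -/
theorem trans_bE
    (hrec : ∃ lam : ∀ v : ↥S, H2 (Lall.sub (DqP v.1)) (rsub (mu p) (DqP v.1)) ≃ₗ[ZMod p] ZMod p,
      ∀ z : H2 (LS S) (mu p), ∑ v, lam v (((arithDatum p S hpS).loc v (mu p)).map2 z) = 0)
    (U : Subgroup GQ) (hU : (LS S).IsOpen U) (hω : U ≤ (cycloChar p).ker) :
    (arithDatum p S hpS).E (Fun (Representation.trivial (ZMod p) GQ (ZMod p)) (GQ ⧸ U)) ≤ 0 := by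
  have key : ∀ μ' : Representation (ZMod p) GQ (ZMod p), μ' = mu p →
      ∃ lam : ∀ v : ↥S, H2 (Lall.sub (DqP v.1)) (rsub μ' (DqP v.1)) ≃ₗ[ZMod p] ZMod p,
        ∀ z : H2 (LS S) μ', ∑ v, lam v (((arithDatum p S hpS).loc v μ').map2 z) = 0 := by
    rintro _ rfl
    exact hrec
  obtain ⟨lam', G1'⟩ := key _ (arithDatum_mu p S hpS)
  exact (arith_transHyp hp2 S hpS).bE lam' G1' U hU hω

end Fermat.Agent.S55

end
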