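/-
S55 / B / Trans / Iso  (task S55/T-Iso)
`J_U = Fun(G/U, μ) ≅ I_U = Fun(G/U, 𝔽_p)` for `U ≤ ker ω`, `J_U ≅ (I_U)' = Hom(I_U, μ)` always,
and the invariance of the numerical invariants under equivariant isomorphisms.

PROOFS.
* `chi_congr`, `p2_congr`, ...: `finrank_H0_congr`, `finrank_H1_congr`, `finrank_H2_congr`
  (L/Duality/Triv.lean) for `𝒜.L` resp. for `𝒜.Lv v` (with `he` restricted to `D v`:
  `fun h x => he h x`); `finrank (∀ v, M v) = ∑ v, finrank (M v)` is `Module.finrank_pi_fintype`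
  (needs `Module.Free`, `Module.Finite` of the factors) -- EASIER: build the linear equivalence
  `LinearEquiv.piCongrRight` of the equivalences `LinearEquiv.ofBijective _ (coeff_equiv_bijective2 ..)`
  (Coh/Mackey.lean, namespace `Mackey`) and use `LinearEquiv.finrank_eq`: no finiteness needed.
* `exists_equiv_JU_IU`: `exists_untwist' 𝒜.mu U` (Coh/FunMod.lean); `𝒜.mu n = 1` for `n ∈ ker ω`
  (`Datum.mu`, `Representation.twist_apply_apply`).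
* `exists_equiv_JU_dualT_IU`: `e a = (b ↦ ∑ w, a w * b w)` (for instance
  `(Pi.basisFun (ZMod p) Ω).toDualEquiv` or `LinearEquiv.ofBijective` + `dotProduct`).
  Equivariance: `(dualT I g (e a)) b = ω g • (e a) (I g⁻¹ b) = ω g * ∑ w, a w * b (g • w)`
  `= ∑ w', ω g * a (g⁻¹ • w') * b w' = (e (J g a)) b` (reindex by `MulAction.toPerm g`);
  unfold `Fun` by its apply-lemma (see Coh/Defs.lean / Coh/Func.lean: `Fun_apply`).
-/
import Fermat.Agent.S55.B.Trans.Defs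
import Fermat.Agent.S55.L.Duality.Triv

set_option autoImplicit false

noncomputable section

namespace Fermat.Agent.S55

open Module Function

variable {p : ℕ} [Fact p.Prime]

namespace Datum

variable (𝒜 : Datum p)
variable {X Y : Type} [AddCommGroup X] [Module (ZMod p) X] [AddCommGroup Y] [Module (ZMod p) Y]
  {ρ : Representation (ZMod p) 𝒜.G X} {σ : Representation (ZMod p) 𝒜.G Y}

theorem h0_congr (e : X ≃ₗ[ZMod p] Y) (he : ∀ g x, e (ρ g x) = σ g (e x)) : 𝒜.h0 ρ = 𝒜.h0 σ := by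
  unfold h0
  rw [finrank_H0_congr e he]

theorem h1_congr (e : X ≃ₗ[ZMod p] Y) (he : ∀ g x, e (ρ g x) = σ g (e x)) : 𝒜.h1 ρ = 𝒜.h1 σ := by
  unfold h1
  rw [finrank_H1_congr 𝒜.L e he]

theorem h2_congr (e : X ≃ₗ[ZMod p] Y) (he : ∀ g x, e (ρ g x) = σ g (e x)) : 𝒜.h2 ρ = 𝒜.h2 σ := by
  unfold h2
  rw [finrank_H2_congr 𝒜.L e he]

theorem chi_congr (e : X ≃ₗ[ZMod p] Y) (he : ∀ g x, e (ρ g x) = σ g (e x)) :
    𝒜.chi ρ = 𝒜.chi σ := by
  unfold chi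
  rw [𝒜.h0_congr e he, 𝒜.h1_congr e he, 𝒜.h2_congr e he]

theorem p2_congr (e : X ≃ₗ[ZMod p] Y) (he : ∀ g x, e (ρ g x) = σ g (e x)) : 𝒜.p2 ρ = 𝒜.p2 σ := by
  unfold p2
  have E : 𝒜.P2 ρ ≃ₗ[ZMod p] 𝒜.P2 σ :=
    LinearEquiv.piCongrRight fun v => LinearEquiv.ofBijective _
      (Mackey.coeff_equiv_bijective2 (𝒜.Lv v) (ρ := rsub ρ (𝒜.D v)) (σ := rsub σ (𝒜.D v)) e
        (fun h x => he h x))
  rw [E.finrank_eq]

theorem exists_equiv_JU_IU (U : Subgroup 𝒜.G) (hω : U ≤ 𝒜.ω.ker) :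
    ∃ e : (𝒜.G ⧸ U → ZMod p) ≃ₗ[ZMod p] (𝒜.G ⧸ U → ZMod p),
      ∀ g x, e (𝒜.JU U g x) = 𝒜.IU U g (e x) := by
  obtain ⟨e, he, -⟩ := exists_untwist' 𝒜.mu U (fun n hn => by
    have h1 : 𝒜.ω n = 1 := hω hn
    ext
    simp [Datum.mu, Representation.twist_apply_apply, h1])
  exact ⟨e, he⟩

theorem exists_equiv_JU_dualT_IU (U : Subgroup 𝒜.G) [Finite (𝒜.G ⧸ U)] :
    ∃ e : (𝒜.G ⧸ U → ZMod p) ≃ₗ[ZMod p] Module.Dual (ZMod p) (𝒜.G ⧸ U → ZMod p),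
      ∀ g x, e (𝒜.JU U g x) = 𝒜.dualT (𝒜.IU U) g (e x) := by
  classical
  have := Fintype.ofFinite (𝒜.G ⧸ U)
  refine ⟨dotProductEquiv (ZMod p) (𝒜.G ⧸ U), fun g a => ?_⟩
  apply LinearMap.ext
  intro b
  simp only [Representation.twist_apply_apply, LinearMap.smul_apply, Representation.dual_apply,
    Module.Dual.transpose_apply, LinearMap.comp_apply]
  show (𝒜.JU U g a) ⬝ᵥ b = (𝒜.ω g : ZMod p) • (a ⬝ᵥ (𝒜.IU U g⁻¹ b))
  simp only [dotProduct, Fun_apply, Datum.mu, Representation.twist_apply_apply,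
    Representation.trivial_apply, inv_inv, smul_eq_mul, Finset.mul_sum]
  refine Fintype.sum_equiv (MulAction.toPerm g⁻¹) _ _ (fun w => ?_)
  simp only [MulAction.toPerm_apply, smul_inv_smul]
  ring

theorem chi_IU_eq (U : Subgroup 𝒜.G) (hω : U ≤ 𝒜.ω.ker) : 𝒜.chi (𝒜.IU U) = 𝒜.chi (𝒜.JU U) := by
  obtain ⟨e, he⟩ := 𝒜.exists_equiv_JU_IU U hω
  exact (𝒜.chi_congr e he).symm

theorem p2_IU_eq (U : Subgroup 𝒜.G) (hω : U ≤ 𝒜.ω.ker) : 𝒜.p2 (𝒜.IU U) = 𝒜.p2 (𝒜.JU U) := by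
  obtain ⟨e, he⟩ := 𝒜.exists_equiv_JU_IU U hω
  exact (𝒜.p2_congr e he).symm

theorem chi_dualT_IU_eq (U : Subgroup 𝒜.G) [Finite (𝒜.G ⧸ U)] :
    𝒜.chi (𝒜.dualT (𝒜.IU U)) = 𝒜.chi (𝒜.JU U) := by
  obtain ⟨e, he⟩ := 𝒜.exists_equiv_JU_dualT_IU U
  exact (𝒜.chi_congr e he).symm

end Datum

end Fermat.Agent.S55

end
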