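/-
S55 / B / Trans / Defs : "TRANSLATE" = (FIN) and (bE) of `Datum.Axioms` from the numerical input (NUM),
reciprocity and the local numerics, by Shapiro + Mackey.  ABSTRACT version (arbitrary `Datum`).
Definitions, sorry-free, FROZEN.
-/
import Fermat.Agent.S55.D.Maps
import Fermat.Agent.S55.L.Duality.Defs

set_option autoImplicit false

noncomputable section

namespace Fermat.Agent.S55

open Module Function

variable {p : ℕ} [Fact p.Prime]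

namespace Datum

variable (𝒜 : Datum p)
variable {X : Type} [AddCommGroup X] [Module (ZMod p) X]

/-- `g D_v g⁻¹` -/
def Dg (v : 𝒜.ι) (g : 𝒜.G) : Subgroup 𝒜.G := (𝒜.D v).map (MulAut.conj g).toMonoidHom

/-- inflation from the global levels to the local levels, on a subgroup `U`. -/
def inflU (ρ : Representation (ZMod p) 𝒜.G X) (U : Subgroup 𝒜.G) :
    Pair (𝒜.L.sub U) (rsub ρ U) (𝒜.Lloc.sub U) (rsub ρ U) :=
  Pair.infl (L := 𝒜.L.sub U) (L' := 𝒜.Lloc.sub U)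
    (fun _ h => h.elim fun V0 h0 => ⟨V0, 𝒜.le V0 h0.1, h0.2⟩) (rsub ρ U)

/-- localisation `(U, L) → (W, Lloc)` for `W ≤ U`. -/
def locU (ρ : Representation (ZMod p) 𝒜.G X) {W U : Subgroup 𝒜.G} (h : W ≤ U) :
    Pair (𝒜.L.sub U) (rsub ρ U) (𝒜.Lloc.sub W) (rsub ρ W) :=
  (Pair.resLE 𝒜.Lloc ρ h).comp (𝒜.inflU ρ U)

/-- `Ш²(U, ρ)`: classes of `H²(U, L; ρ)` which are trivial on all `g D_v g⁻¹ ∩ U`. -/
def ShaU (ρ : Representation (ZMod p) 𝒜.G X) (U : Subgroup 𝒜.G) :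
    Submodule (ZMod p) (H2 (𝒜.L.sub U) (rsub ρ U)) :=
  ⨅ (v : 𝒜.ι) (g : 𝒜.G), LinearMap.ker (𝒜.locU ρ (inf_le_right : 𝒜.Dg v g ⊓ U ≤ U)).map2

/-- the number of "places of `Fix U`": `∑_v #(D_v \ G / U)`. -/
def nPl (U : Subgroup 𝒜.G) : ℕ :=
  ∑ v, Nat.card (MulAction.orbitRel.Quotient ↥(𝒜.D v) (𝒜.G ⧸ U))

/-- `I_U = Fun(G/U, 𝔽_p)` -/
abbrev IU (U : Subgroup 𝒜.G) : Representation (ZMod p) 𝒜.G (𝒜.G ⧸ U → ZMod p) :=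
  Fun 𝒜.triv (𝒜.G ⧸ U)

/-- `J_U = Fun(G/U, μ)` -/
abbrev JU (U : Subgroup 𝒜.G) : Representation (ZMod p) 𝒜.G (𝒜.G ⧸ U → ZMod p) :=
  Fun 𝒜.mu (𝒜.G ⧸ U)

end Datum

/-- the input of (FIN) and of the numerical part of (bE). -/
structure TransHyp (𝒜 : Datum p) (n : 𝒜.ι → ℕ) : Prop where
  /-- local numerics: `h¹(W;𝔽_p) = 2 + n_v [D_v:W]`, `h²(W;𝔽_p) = 1` for `W ≤ D_v ∩ ker ω` open -/
  loc : ∀ v, LocalHyp p (𝒜.Lv v) (𝒜.ω.comp (𝒜.D v).subtype) (n v)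
  sum_n : ∑ v, n v = 1
  /-- (NUM) -/
  num : ∀ U : Subgroup 𝒜.G, 𝒜.L.IsOpen U → U ≤ 𝒜.ω.ker →
    FiniteDimensional (ZMod p) (H1 (𝒜.L.sub U) (rsub 𝒜.mu U)) ∧
    FiniteDimensional (ZMod p) ↥(𝒜.ShaU 𝒜.mu U) ∧
    2 * (finrank (ZMod p) ↥(𝒜.ShaU 𝒜.mu U) + 𝒜.nPl U) + U.index ≤
      2 * finrank (ZMod p) (H1 (𝒜.L.sub U) (rsub 𝒜.mu U))

end Fermat.Agent.S55

end
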