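/-
S55 / B / Trans / Mackey  (task S55/T-Mackey)
The local cohomology of `I_U = Fun(G/U, 𝔽_p)`, `U ≤ ker ω` open: with `o_v = #(D_v \ G / U)`
   `h⁰(D_v; I_U) = o_v`,  `h¹(D_v; I_U) = 2 o_v + n_v [G:U]`,  `h²(D_v; I_U) = o_v`.

PROOF.  Fix `v`; `D = 𝒜.D v`, `Ω = 𝒜.G ⧸ U` (finite: `𝒜.finite_quotient U hU`;
`Levels.smoothSet_quotient' (𝒜.le U hU) : 𝒜.Lloc.SmoothSet Ω`), `ι = Trans.Orb D Ω` (finite: quotient of a finite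
type; take `Fintype.ofFinite`), `x = Trans.rep D Ω`, `W = Trans.stab D Ω`.
`evSub_pi_bijective0/1/2 𝒜.Lloc 𝒜.triv Ω D x W (Trans.mem_stab_iff D Ω) (Trans.existsUnique_rep D Ω)` :
   `Hⁱ(𝒜.Lv v; rsub (I_U) D) ≃ ∀ j, Hⁱ(𝒜.Lloc.sub (W j); rsub 𝒜.triv (W j))`      (`LinearEquiv.ofBijective`).
`stab_factor*` (one factor): `Pair.subOf 𝒜.Lloc 𝒜.triv (Trans.stab_le D Ω j)` is dense (`Pair.isDense_subOf`), hence
bijective on `Hⁱ` (`Pair.IsDense.bijective1/2`): `Hⁱ((𝒜.Lv v).sub W'; rsub (rsub 𝒜.triv D) W') ≃ Hⁱ(𝒜.Lloc.sub (W j); ..)`,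
`W' = (W j).subgroupOf D`; `rsub (rsub 𝒜.triv D) W' = trivF p W'` (`rfl` or `rsub_eq_trivial`, L/Duality/Triv.lean);
now `(h.loc v).h1 W' hopen hker`, `(h.loc v).h2 W' hopen hker`, where
  hopen : `(𝒜.Lv v).IsOpen W'` : `Levels.SmoothSet.isOpen_stabilizer` for `(𝒜.Lloc.sub D).SmoothSet Ω` (instance
     `Levels.smoothSet_sub`), as `W' = MulAction.stabilizer ↥D (x j)`; or directly from the definition of `Levels.sub`;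
  hker : `W' ≤ (𝒜.ω.comp D.subtype).ker` : `Trans.stabilizer_quotient_le U 𝒜.ω.ker hω`.
`h⁰` of one factor is `1` (`finrank_H0_trivial`, L/Duality/Triv.lean).
Finally `finrank (∀ j, M j) = ∑ j, finrank (M j)` (`Module.finrank_pi_fintype`; the factors are finite dimensional since
their `finrank` is positive: `Module.finite_of_finrank_pos`), `Trans.sum_index_stab`, `Nat.card Ω = U.index` (`Subgroup.index`
is by definition `Nat.card (G ⧸ U)`), `Finset.sum_add_distrib`, `Finset.mul_sum`, `Nat.card_eq_fintype_card`.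
The global statements: `p0, p1, p2` are `finrank` of products over `v` (`Module.finrank_pi_fintype` again,
finiteness: `𝒜.finLoc1_of_localHyp n h.loc`, `finLoc2_of_localHyp` of L/Duality/Glue.lean with `𝒜.smooth_Fun 𝒜.triv U hU`; beware:
for `P1`, `P2` the instances `instModuleP1/2` of D/Maps.lean may be needed), `h.sum_n`, `Datum.nPl`.
-/
import Fermat.Agent.S55.B.Trans.Defs
import Fermat.Agent.S55.B.Trans.Orbits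
import Fermat.Agent.S55.L.Duality.Glue

set_option autoImplicit false
set_option linter.style.haveILetI false

noncomputable section

namespace Fermat.Agent.S55

open Module Function

variable {p : ℕ} [Fact p.Prime]

namespace TransHyp

variable {𝒜 : Datum p} {n : 𝒜.ι → ℕ} (h : TransHyp 𝒜 n)
  (U : Subgroup 𝒜.G) (hU : 𝒜.L.IsOpen U) (hω : U ≤ 𝒜.ω.ker) (v : 𝒜.ι)

omit h hω in
include hU in
/-- the stabiliser of a representative is open in `D_v`. -/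
theorem Mackey_isOpen_stab (j : Trans.Orb (𝒜.D v) (𝒜.G ⧸ U)) :
    (𝒜.Lv v).IsOpen ((Trans.stab (𝒜.D v) (𝒜.G ⧸ U) j).subgroupOf (𝒜.D v)) := by
  haveI : 𝒜.Lloc.SmoothSet (𝒜.G ⧸ U) := Levels.smoothSet_quotient' (𝒜.le U hU)
  have h1 : 𝒜.Lloc.IsOpen (MulAction.stabilizer 𝒜.G (Trans.rep (𝒜.D v) (𝒜.G ⧸ U) j)) :=
    Levels.SmoothSet.isOpen_stabilizer _
  have h2 := Levels.IsOpen.subgroupOf h1 (𝒜.D v)
  rw [Trans.stab, Subgroup.inf_subgroupOf_right]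
  exact h2

omit h hU in
include hω in
theorem Mackey_stab_le_ker (j : Trans.Orb (𝒜.D v) (𝒜.G ⧸ U)) :
    (Trans.stab (𝒜.D v) (𝒜.G ⧸ U) j).subgroupOf (𝒜.D v) ≤ (𝒜.ω.comp (𝒜.D v).subtype).ker := by
  intro x hx
  have h1 : (x : 𝒜.G) ∈ Trans.stab (𝒜.D v) (𝒜.G ⧸ U) j := hx
  have h2 : (x : 𝒜.G) ∈ 𝒜.ω.ker :=
    Trans.stabilizer_quotient_le U 𝒜.ω.ker hω _ h1.1
  exact h2

include h hU hω

/-- one factor, degree 1 -/
theorem stab_factor1 (j : Trans.Orb (𝒜.D v) (𝒜.G ⧸ U)) :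
    finrank (ZMod p) (H1 (𝒜.Lloc.sub (Trans.stab (𝒜.D v) (𝒜.G ⧸ U) j))
      (rsub 𝒜.triv (Trans.stab (𝒜.D v) (𝒜.G ⧸ U) j))) =
      2 + n v * ((Trans.stab (𝒜.D v) (𝒜.G ⧸ U) j).subgroupOf (𝒜.D v)).index := by
  have hb := (Pair.isDense_subOf 𝒜.Lloc 𝒜.triv
    (Trans.stab_le (𝒜.D v) (𝒜.G ⧸ U) j)).bijective1
  rw [← (LinearEquiv.ofBijective _ hb).finrank_eq]
  exact (h.loc v).h1 _ (Mackey_isOpen_stab U hU v j) (Mackey_stab_le_ker U hω v j)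

/-- one factor, degree 2 -/
theorem stab_factor2 (j : Trans.Orb (𝒜.D v) (𝒜.G ⧸ U)) :
    finrank (ZMod p) (H2 (𝒜.Lloc.sub (Trans.stab (𝒜.D v) (𝒜.G ⧸ U) j))
      (rsub 𝒜.triv (Trans.stab (𝒜.D v) (𝒜.G ⧸ U) j))) = 1 := by
  have hb := (Pair.isDense_subOf 𝒜.Lloc 𝒜.triv
    (Trans.stab_le (𝒜.D v) (𝒜.G ⧸ U) j)).bijective2
  rw [← (LinearEquiv.ofBijective _ hb).finrank_eq]
  exact (h.loc v).h2 _ (Mackey_isOpen_stab U hU v j) (Mackey_stab_le_ker U hω v j)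

omit h hω in
theorem finrank_H0_loc_IU :
    finrank (ZMod p) ↥(H0 (rsub (𝒜.IU U) (𝒜.D v))) =
      Nat.card (MulAction.orbitRel.Quotient ↥(𝒜.D v) (𝒜.G ⧸ U)) := by
  haveI : Finite (𝒜.G ⧸ U) := 𝒜.finite_quotient U hU
  haveI : Finite (Trans.Orb (𝒜.D v) (𝒜.G ⧸ U)) := Quotient.finite _
  letI : Fintype (Trans.Orb (𝒜.D v) (𝒜.G ⧸ U)) := Fintype.ofFinite _
  have hb := evSub_pi_bijective0 𝒜.Lloc 𝒜.triv (𝒜.G ⧸ U) (𝒜.D v) (Trans.rep (𝒜.D v) (𝒜.G ⧸ U))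
    (Trans.stab (𝒜.D v) (𝒜.G ⧸ U)) (Trans.mem_stab_iff (𝒜.D v) (𝒜.G ⧸ U))
    (Trans.existsUnique_rep (𝒜.D v) (𝒜.G ⧸ U))
  rw [(LinearEquiv.ofBijective _ hb).finrank_eq, Module.finrank_pi_fintype]
  have h1 : ∀ j : Trans.Orb (𝒜.D v) (𝒜.G ⧸ U),
      finrank (ZMod p) ↥(H0 (rsub 𝒜.triv (Trans.stab (𝒜.D v) (𝒜.G ⧸ U) j))) = 1 := by
    intro j
    have := finrank_H0_trivial (k := ZMod p) (H := ↥(Trans.stab (𝒜.D v) (𝒜.G ⧸ U) j)) (ZMod p)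
    rw [Module.finrank_self] at this
    exact this
  rw [Finset.sum_congr rfl (fun j _ => h1 j), Finset.sum_const, Finset.card_univ, smul_eq_mul,
    mul_one]
  exact (Nat.card_eq_fintype_card (α := Trans.Orb (𝒜.D v) (𝒜.G ⧸ U))).symm

theorem finrank_H1_loc_IU :
    finrank (ZMod p) (H1 (𝒜.Lv v) (rsub (𝒜.IU U) (𝒜.D v))) =
      2 * Nat.card (MulAction.orbitRel.Quotient ↥(𝒜.D v) (𝒜.G ⧸ U)) + n v * U.index := by
  haveI : Finite (𝒜.G ⧸ U) := 𝒜.finite_quotient U hU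
  haveI : 𝒜.Lloc.SmoothSet (𝒜.G ⧸ U) := Levels.smoothSet_quotient' (𝒜.le U hU)
  haveI : Finite (Trans.Orb (𝒜.D v) (𝒜.G ⧸ U)) := Quotient.finite _
  letI : Fintype (Trans.Orb (𝒜.D v) (𝒜.G ⧸ U)) := Fintype.ofFinite _
  have hb := evSub_pi_bijective1 𝒜.Lloc 𝒜.triv (𝒜.G ⧸ U) (𝒜.D v) (Trans.rep (𝒜.D v) (𝒜.G ⧸ U))
    (Trans.stab (𝒜.D v) (𝒜.G ⧸ U)) (Trans.mem_stab_iff (𝒜.D v) (𝒜.G ⧸ U))
    (Trans.existsUnique_rep (𝒜.D v) (𝒜.G ⧸ U))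
  have h1 := h.stab_factor1 U hU hω v
  haveI : ∀ j : Trans.Orb (𝒜.D v) (𝒜.G ⧸ U), Module.Finite (ZMod p)
      (H1 (𝒜.Lloc.sub (Trans.stab (𝒜.D v) (𝒜.G ⧸ U) j))
        (rsub 𝒜.triv (Trans.stab (𝒜.D v) (𝒜.G ⧸ U) j))) := fun j =>
    Module.finite_of_finrank_pos (by rw [h1 j]; omega)
  haveI : ∀ j : Trans.Orb (𝒜.D v) (𝒜.G ⧸ U), Module.Free (ZMod p)
      (H1 (𝒜.Lloc.sub (Trans.stab (𝒜.D v) (𝒜.G ⧸ U) j))
        (rsub 𝒜.triv (Trans.stab (𝒜.D v) (𝒜.G ⧸ U) j))) := fun j =>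
    Module.Free.of_divisionRing (ZMod p) _
  rw [(LinearEquiv.ofBijective _ hb).finrank_eq, Module.finrank_pi_fintype,
    Finset.sum_congr rfl (fun j _ => h1 j), Finset.sum_add_distrib, ← Finset.mul_sum,
    Trans.sum_index_stab, Finset.sum_const, Finset.card_univ, smul_eq_mul,
    ← Nat.card_eq_fintype_card (α := Trans.Orb (𝒜.D v) (𝒜.G ⧸ U)), mul_comm]
  rfl

theorem finrank_H2_loc_IU :
    finrank (ZMod p) (H2 (𝒜.Lv v) (rsub (𝒜.IU U) (𝒜.D v))) =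
      Nat.card (MulAction.orbitRel.Quotient ↥(𝒜.D v) (𝒜.G ⧸ U)) := by
  haveI : Finite (𝒜.G ⧸ U) := 𝒜.finite_quotient U hU
  haveI : 𝒜.Lloc.SmoothSet (𝒜.G ⧸ U) := Levels.smoothSet_quotient' (𝒜.le U hU)
  haveI : Finite (Trans.Orb (𝒜.D v) (𝒜.G ⧸ U)) := Quotient.finite _
  letI : Fintype (Trans.Orb (𝒜.D v) (𝒜.G ⧸ U)) := Fintype.ofFinite _
  have hb := evSub_pi_bijective2 𝒜.Lloc 𝒜.triv (𝒜.G ⧸ U) (𝒜.D v) (Trans.rep (𝒜.D v) (𝒜.G ⧸ U))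
    (Trans.stab (𝒜.D v) (𝒜.G ⧸ U)) (Trans.mem_stab_iff (𝒜.D v) (𝒜.G ⧸ U))
    (Trans.existsUnique_rep (𝒜.D v) (𝒜.G ⧸ U))
  have h1 := h.stab_factor2 U hU hω v
  haveI : ∀ j : Trans.Orb (𝒜.D v) (𝒜.G ⧸ U), Module.Finite (ZMod p)
      (H2 (𝒜.Lloc.sub (Trans.stab (𝒜.D v) (𝒜.G ⧸ U) j))
        (rsub 𝒜.triv (Trans.stab (𝒜.D v) (𝒜.G ⧸ U) j))) := fun j =>
    Module.finite_of_finrank_pos (by rw [h1 j]; omega)
  haveI : ∀ j : Trans.Orb (𝒜.D v) (𝒜.G ⧸ U), Module.Free (ZMod p)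
      (H2 (𝒜.Lloc.sub (Trans.stab (𝒜.D v) (𝒜.G ⧸ U) j))
        (rsub 𝒜.triv (Trans.stab (𝒜.D v) (𝒜.G ⧸ U) j))) := fun j =>
    Module.Free.of_divisionRing (ZMod p) _
  rw [(LinearEquiv.ofBijective _ hb).finrank_eq, Module.finrank_pi_fintype,
    Finset.sum_congr rfl (fun j _ => h1 j), Finset.sum_const, Finset.card_univ, smul_eq_mul,
    mul_one]
  exact (Nat.card_eq_fintype_card (α := Trans.Orb (𝒜.D v) (𝒜.G ⧸ U))).symm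

omit h hω in
theorem p0_IU : 𝒜.p0 (𝒜.IU U) = 𝒜.nPl U := by
  haveI : Finite (𝒜.G ⧸ U) := 𝒜.finite_quotient U hU
  rw [Datum.p0, Datum.nPl, Module.finrank_pi_fintype,
    Finset.sum_congr rfl (fun v _ => finrank_H0_loc_IU U hU v)]

theorem p1_IU : 𝒜.p1 (𝒜.IU U) = 2 * 𝒜.nPl U + U.index := by
  haveI : Finite (𝒜.G ⧸ U) := 𝒜.finite_quotient U hU
  haveI : Smooth 𝒜.L (𝒜.IU U) := 𝒜.smooth_Fun 𝒜.triv U hU
  haveI : ∀ v, Module.Finite (ZMod p) (H1 (𝒜.Lv v) (rsub (𝒜.IU U) (𝒜.D v))) := fun v =>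
    𝒜.finLoc1_of_localHyp n h.loc (𝒜.IU U) v
  haveI : ∀ v, Module.Free (ZMod p) (H1 (𝒜.Lv v) (rsub (𝒜.IU U) (𝒜.D v))) := fun v =>
    Module.Free.of_divisionRing (ZMod p) _
  have e : finrank (ZMod p) (𝒜.P1 (𝒜.IU U)) = 2 * 𝒜.nPl U + U.index := by
    rw [Datum.nPl]
    calc finrank (ZMod p) (𝒜.P1 (𝒜.IU U))
        = ∑ v, finrank (ZMod p) (H1 (𝒜.Lv v) (rsub (𝒜.IU U) (𝒜.D v))) :=
          Module.finrank_pi_fintype (ZMod p)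
      _ = ∑ v, (2 * Nat.card (MulAction.orbitRel.Quotient ↥(𝒜.D v) (𝒜.G ⧸ U)) + n v * U.index) :=
          Finset.sum_congr rfl (fun v _ => h.finrank_H1_loc_IU U hU hω v)
      _ = _ := by
          rw [Finset.sum_add_distrib, ← Finset.mul_sum, ← Finset.sum_mul, h.sum_n, one_mul]
  rw [Datum.p1, e]
  push_cast
  ring

theorem p2_IU : 𝒜.p2 (𝒜.IU U) = 𝒜.nPl U := by
  haveI : Finite (𝒜.G ⧸ U) := 𝒜.finite_quotient U hU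
  haveI : Smooth 𝒜.L (𝒜.IU U) := 𝒜.smooth_Fun 𝒜.triv U hU
  haveI : ∀ v, Module.Finite (ZMod p) (H2 (𝒜.Lv v) (rsub (𝒜.IU U) (𝒜.D v))) := fun v =>
    𝒜.finLoc2_of_localHyp n h.loc (𝒜.IU U) v
  haveI : ∀ v, Module.Free (ZMod p) (H2 (𝒜.Lv v) (rsub (𝒜.IU U) (𝒜.D v))) := fun v =>
    Module.Free.of_divisionRing (ZMod p) _
  have e : finrank (ZMod p) (𝒜.P2 (𝒜.IU U)) = 𝒜.nPl U := by
    rw [Datum.nPl]
    calc finrank (ZMod p) (𝒜.P2 (𝒜.IU U))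
        = ∑ v, finrank (ZMod p) (H2 (𝒜.Lv v) (rsub (𝒜.IU U) (𝒜.D v))) :=
          Module.finrank_pi_fintype (ZMod p)
      _ = _ := Finset.sum_congr rfl (fun v _ => h.finrank_H2_loc_IU U hU hω v)
  rw [Datum.p2, e]

theorem chiLoc_IU : 𝒜.chiLoc (𝒜.IU U) = - (U.index : ℤ) := by
  rw [Datum.chiLoc, p0_IU U hU, h.p1_IU U hU hω, h.p2_IU U hU hω]
  ring

end TransHyp

end Fermat.Agent.S55

end
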