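/-
S55 / B / Trans / BE  (task S55/T-BE)
(bE): `E(I_U) = χ(I_U) + χ(I_U') - χ_loc(I_U) ≤ 0` for `U ≤ ker ω` open.

PROOF.  Write `J = 𝒜.JU U`, `a = finrank H¹(U, L; μ)`, `sha = finrank Ш²(U, μ)`, `P = 𝒜.nPl U`, `d = U.index`.
* `h0_JU`: `finrank_H0_Fun 𝒜.L 𝒜.mu U` (L/Duality/Triv.lean), `rsub 𝒜.mu U = trivial` (`rsub_eq_trivial`, `𝒜.mu g = 1` on
  `ker ω`), `finrank_H0_trivial`, `Module.finrank_self`.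
* `h1_JU`: `finrank_H1_Fun 𝒜.L 𝒜.mu U hU`.
* `h2_JU_le`: rank-nullity for `𝒜.loc2 J` (`LinearMap.finrank_range_add_finrank_ker`, with
  `h.finiteDimensional_H2_JU U hU hω`): `h2 J = r2 J + s2 J`  (`Datum.Sha2 = ker loc2` by definition);
  `s2 J ≤ sha` (`𝒜.finrank_Sha2_Fun_le 𝒜.mu U hU`, instance `(h.num U hU hω).2.1`);
  `r2 J + 1 ≤ p2 J` (`h.r2_JU_add_one_le lam G1 U hU`), `p2 J = p2 (I_U) = P` (`𝒜.p2_IU_eq U hω`, `h.p2_IU U hU hω`).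
* `two_chi_JU_le`: `2 χ(J) + d = 2 - 2a + 2 h2 + d ≤ 2(sha + P) + d - 2a ≤ 0` by `(h.num U hU hω).2.2` (cast to `ℤ`:
  `exact_mod_cast`/`zify`), `linarith`/`omega`.
* `bE`: `Datum.E`, `𝒜.chi_IU_eq U hω`, `𝒜.chi_dualT_IU_eq U` (instance `𝒜.finite_quotient U hU`), `h.chiLoc_IU U hU hω`.
-/
import Fermat.Agent.S55.B.Trans.Iso
import Fermat.Agent.S55.B.Trans.Mackey
import Fermat.Agent.S55.B.Trans.Fin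

set_option autoImplicit false

noncomputable section

namespace Fermat.Agent.S55

open Module Function

variable {p : ℕ} [Fact p.Prime]

namespace TransHyp

variable {𝒜 : Datum p} {n : 𝒜.ι → ℕ} (h : TransHyp 𝒜 n)
  (lam : ∀ v : 𝒜.ι, H2 (𝒜.Lv v) (rsub 𝒜.mu (𝒜.D v)) ≃ₗ[ZMod p] ZMod p)
  (G1 : ∀ z : H2 𝒜.L 𝒜.mu, ∑ v, lam v ((𝒜.loc v 𝒜.mu).map2 z) = 0)
  (U : Subgroup 𝒜.G) (hU : 𝒜.L.IsOpen U) (hω : U ≤ 𝒜.ω.ker)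

include hω in
theorem h0_JU : 𝒜.h0 (𝒜.JU U) = 1 := by
  have hmu : ∀ g ∈ U, 𝒜.mu g = 1 := by
    intro g hg
    have hg' : 𝒜.ω g = 1 := MonoidHom.mem_ker.mp (hω hg)
    ext
    simp [Datum.mu, Representation.twist_apply_apply, hg']
  rw [Datum.h0, finrank_H0_Fun 𝒜.mu U, rsub_eq_trivial 𝒜.mu U hmu, finrank_H0_trivial,
    Module.finrank_self]
  rfl

include hU in
theorem h1_JU : 𝒜.h1 (𝒜.JU U) = finrank (ZMod p) (H1 (𝒜.L.sub U) (rsub 𝒜.mu U)) := by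
  rw [Datum.h1, finrank_H1_Fun 𝒜.L 𝒜.mu U hU]

include h G1 hU hω in
theorem h2_JU_le :
    𝒜.h2 (𝒜.JU U) + 1 ≤ finrank (ZMod p) ↥(𝒜.ShaU 𝒜.mu U) + 𝒜.nPl U := by
  have hfd := h.finiteDimensional_H2_JU U hU hω
  have hfs := (h.num U hU hω).2.1
  have h1 : 𝒜.h2 (𝒜.JU U) = 𝒜.r2 (𝒜.JU U) + 𝒜.s2 (𝒜.JU U) := by
    have key := LinearMap.finrank_range_add_finrank_ker (K := ZMod p) (V := H2 𝒜.L (𝒜.JU U))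
      (V₂ := 𝒜.P2 (𝒜.JU U)) (𝒜.loc2 (𝒜.JU U))
    unfold Datum.h2 Datum.s2 Datum.r2 Datum.Sha2
    omega
  have h2 : 𝒜.s2 (𝒜.JU U) ≤ finrank (ZMod p) ↥(𝒜.ShaU 𝒜.mu U) := by
    rw [Datum.s2]
    exact_mod_cast 𝒜.finrank_Sha2_Fun_le 𝒜.mu U hU
  have h3 := h.r2_JU_add_one_le lam G1 U hU
  have h4 : 𝒜.p2 (𝒜.JU U) = 𝒜.nPl U := by
    rw [← 𝒜.p2_IU_eq U hω, h.p2_IU U hU hω]
  linarith

include h G1 hU hω in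
theorem two_chi_JU_le : 2 * 𝒜.chi (𝒜.JU U) + U.index ≤ 0 := by
  have h0 := h0_JU U hω
  have h1 := h1_JU U hU
  have h2 := h.h2_JU_le lam G1 U hU hω
  have h3 : (2 * ((finrank (ZMod p) ↥(𝒜.ShaU 𝒜.mu U) : ℤ) + (𝒜.nPl U : ℤ)) + (U.index : ℤ)) ≤
      2 * (finrank (ZMod p) (H1 (𝒜.L.sub U) (rsub 𝒜.mu U)) : ℤ) := by
    exact_mod_cast (h.num U hU hω).2.2
  rw [Datum.chi, h0, h1]
  linarith

include h G1 hU hω in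
theorem bE : 𝒜.E (Fun 𝒜.triv (𝒜.G ⧸ U)) ≤ 0 := by
  have := 𝒜.finite_quotient U hU
  have h1 := h.two_chi_JU_le lam G1 U hU hω
  have h2 : 𝒜.chi (Fun 𝒜.triv (𝒜.G ⧸ U)) = 𝒜.chi (𝒜.JU U) := 𝒜.chi_IU_eq U hω
  have h3 : 𝒜.chi (𝒜.dualT (Fun 𝒜.triv (𝒜.G ⧸ U))) = 𝒜.chi (𝒜.JU U) := 𝒜.chi_dualT_IU_eq U
  have h4 : 𝒜.chiLoc (Fun 𝒜.triv (𝒜.G ⧸ U)) = - (U.index : ℤ) := h.chiLoc_IU U hU hω
  rw [Datum.E, h2, h3, h4]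
  linarith

end TransHyp

end Fermat.Agent.S55

end
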