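/-
S55 / B / Trans / Recip  (task S55/T-Recip)
Reciprocity ⟹ `loc² : H²(G; J_U) → P²(J_U)` is NOT surjective: `r2 (J_U) + 1 ≤ p2 (J_U)`.
(Do NOT use D/*.lean beyond D/Maps.lean: this is an input of `Datum.Axioms`.)

PROOF.  `Ω = G ⧸ U` finite (`𝒜.finite_quotient U hU`), nonempty; `s = sumMap (ZMod p) (ZMod p) Ω : (Ω → 𝔽_p) → 𝔽_p`,
`hs = sumMap_comm 𝒜.mu Ω : s (J_U g f) = μ g (s f)`  (Coh/FunMod.lean).
`Λ : 𝒜.P2 (J_U) →ₗ ZMod p`, `Λ z = ∑ v, lam v ((𝒜.cv v s hs).map2 (z v))`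
   (`∑ v, (lam v).toLinearMap ∘ₗ (𝒜.cv v s hs).map2 ∘ₗ LinearMap.proj v`).
(a) `Λ (𝒜.loc2 J_U y) = 0`: `𝒜.loc2_g2 s hs y` + `l2_apply` give
    `(𝒜.cv v s hs).map2 ((𝒜.loc2 J_U y) v) = (𝒜.loc2 μ (𝒜.g2 s hs y)) v = (𝒜.loc v μ).map2 (𝒜.g2 s hs y)`; then `G1`.
(b) `Λ ≠ 0`: take any `v₀`.  `φ := s` is an element of `H0 (rsub (𝒜.dualT J_U) (𝒜.D v₀))`
    (`mem_H0_dualTwist_iff`, L/Duality/Defs.lean, with `Glue_dual`; or directly), `φ ≠ 0` (`sumMap_surjective`).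
    `𝒜.L1_right_of_localHyp n h.loc lam (J_U) v₀ φ` (L/Duality/Glue.lean; instance `𝒜.smooth_Fun 𝒜.mu U hU`): there is `z₀` with
    `lam v₀ ((𝒜.evPair v₀ J_U φ).map2 z₀) ≠ 0`; `𝒜.evPair v₀ J_U φ` and `𝒜.cv v₀ s hs` are both `Pair.coeff _ s _` (rfl).
    `Λ (Pi.single v₀ z₀) = lam v₀ (..) ≠ 0` (`Finset.sum_eq_single v₀`, `Pi.single_eq_of_ne`, `map_zero`).
(c) `range loc² ≤ ker Λ`, `finrank (ker Λ) + finrank (range Λ) = finrank P²` (`LinearMap.finrank_range_add_finrank_ker`),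
    `finrank (range Λ) ≥ 1` (range ≠ ⊥), `Submodule.finrank_mono`.   `P²(J_U)` is finite dimensional by
    `𝒜.finLoc2_of_localHyp n h.loc` (product over the `Fintype 𝒜.ι`; instances `instModuleP2` of D/Maps.lean).
-/
import Fermat.Agent.S55.B.Trans.Defs
import Fermat.Agent.S55.L.Duality.Glue

set_option autoImplicit false

noncomputable section

namespace Fermat.Agent.S55

open Module Function

variable {p : ℕ} [Fact p.Prime]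

namespace TransHyp

variable {𝒜 : Datum p} {n : 𝒜.ι → ℕ} (h : TransHyp 𝒜 n)

include h in
theorem finiteDimensional_P2 {X : Type} [AddCommGroup X] [Module (ZMod p) X]
    [FiniteDimensional (ZMod p) X] (ρ : Representation (ZMod p) 𝒜.G X) [Smooth 𝒜.L ρ] :
    FiniteDimensional (ZMod p) (𝒜.P2 ρ) := by
  have := fun v => 𝒜.finLoc2_of_localHyp n h.loc ρ v
  exact Module.Finite.pi (R := ZMod p) (ι := 𝒜.ι) (M := fun v => H2 (𝒜.Lv v) (rsub ρ (𝒜.D v)))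

include h in
theorem r2_JU_add_one_le
    (lam : ∀ v : 𝒜.ι, H2 (𝒜.Lv v) (rsub 𝒜.mu (𝒜.D v)) ≃ₗ[ZMod p] ZMod p)
    (G1 : ∀ z : H2 𝒜.L 𝒜.mu, ∑ v, lam v ((𝒜.loc v 𝒜.mu).map2 z) = 0)
    (U : Subgroup 𝒜.G) (hU : 𝒜.L.IsOpen U) :
    𝒜.r2 (𝒜.JU U) + 1 ≤ 𝒜.p2 (𝒜.JU U) := by
  classical
  have := 𝒜.finite_quotient U hU
  have := 𝒜.smooth_Fun 𝒜.mu U hU
  have := h.finiteDimensional_P2 (𝒜.JU U)
  set s : (𝒜.G ⧸ U → ZMod p) →ₗ[ZMod p] ZMod p := sumMap (ZMod p) (ZMod p) (𝒜.G ⧸ U) with hsdef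
  have hs : ∀ g f, s (𝒜.JU U g f) = 𝒜.mu g (s f) := sumMap_comm 𝒜.mu _
  let Λ : 𝒜.P2 (𝒜.JU U) →ₗ[ZMod p] ZMod p :=
    ∑ v, (lam v).toLinearMap ∘ₗ (𝒜.cv v s hs).map2 ∘ₗ LinearMap.proj v
  have hΛ : ∀ z, Λ z = ∑ v, lam v ((𝒜.cv v s hs).map2 (z v)) := by
    intro z
    simp only [Λ, LinearMap.coe_sum, Finset.sum_apply, LinearMap.comp_apply,
      LinearEquiv.coe_coe, LinearMap.proj_apply]
  have ha : LinearMap.range (𝒜.loc2 (𝒜.JU U)) ≤ LinearMap.ker Λ := by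
    rintro _ ⟨y, rfl⟩
    rw [LinearMap.mem_ker, hΛ, ← G1 (𝒜.g2 s hs y)]
    refine Finset.sum_congr rfl fun v _ => ?_
    rw [← Datum.l2_apply, ← Datum.loc2_g2]
    rfl
  obtain ⟨v₀⟩ := 𝒜.ne
  have hφmem : (s : Module.Dual (ZMod p) (𝒜.G ⧸ U → ZMod p)) ∈
      H0 (rsub (𝒜.dualT (𝒜.JU U)) (𝒜.D v₀)) := by
    rw [Datum.Glue_dual, mem_H0_dualTwist_iff]
    intro g x
    have := hs g x
    simpa [Datum.mu, Representation.twist_apply_apply] using this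
  have hb : Λ ≠ 0 := by
    intro hΛ0
    have h0 := 𝒜.L1_right_of_localHyp n h.loc lam (𝒜.JU U) v₀ ⟨s, hφmem⟩ (by
      intro z
      have h1 : Λ (Pi.single v₀ z) = 0 := by rw [hΛ0]; rfl
      rw [hΛ, Finset.sum_eq_single v₀ (by
        intro v _ hv
        rw [Pi.single_eq_of_ne hv, map_zero, map_zero]) (by simp), Pi.single_eq_same] at h1
      exact h1)
    have h2 : s = 0 := congrArg Subtype.val h0
    obtain ⟨f, hf⟩ := sumMap_surjective (k := ZMod p) (X := ZMod p) (𝒜.G ⧸ U) 1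
    rw [← hsdef, h2] at hf
    exact zero_ne_one hf
  have hr : 1 ≤ finrank (ZMod p) ↥(LinearMap.range Λ) := by
    rw [Nat.succ_le_iff, Module.finrank_pos_iff_exists_ne_zero]
    obtain ⟨z, hz⟩ := DFunLike.ne_iff.1 hb
    exact ⟨⟨Λ z, z, rfl⟩, fun h0 => hz (congrArg Subtype.val h0)⟩
  have h1 := LinearMap.finrank_range_add_finrank_ker Λ
  have h2 := Submodule.finrank_mono ha
  simp only [Datum.r2, Datum.p2]
  omega

end TransHyp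

end Fermat.Agent.S55

end
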