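/-
S55 / B / Trans / Sha  (task S55/T-Sha)
Shapiro's isomorphism `H²(G, L; Fun(G/U, ρ)) ≅ H²(U, L; ρ)` maps `Ш²(Fun(G/U, ρ))` into `Ш²(U, ρ)`.

PROOF of `sh_mem_ShaU`.  Put `Ω = G ⧸ U`, `x₀ = ((1 : G) : Ω)`, `F = Fun ρ Ω`, `y = (Pair.infl 𝒜.le F).map2 z`.
`Pair.sh L ρ U` is by definition `Pair.ev L ρ Ω U x₀ _` (Coh/Cores.lean).  Instances needed:
`𝒜.finite_quotient U hU`, `Levels.smoothSet_quotient' (𝒜.le U hU) : 𝒜.Lloc.SmoothSet Ω`, `smooth_Lloc`.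
Fix `v`, `g` and put `W = 𝒜.Dg v g ⊓ U`
(`Submodule.mem_iInf`, `LinearMap.mem_ker`; `locU = (resLE ..).comp (inflU ..)`, `Pair.comp_map2`-type
lemma or `comp2` of Coh/Flat.lean).
 1. `(𝒜.inflU ρ U).map2 ((Pair.sh 𝒜.L ρ U).map2 z) = (Pair.sh 𝒜.Lloc ρ U).map2 y`:
    both sides are `R.map2 z` for the same pair `R` (same `f`, same `φ`): `comp2` (Coh/Flat.lean) twice.
 2. `(Pair.resLE 𝒜.Lloc ρ _).map2 ((Pair.ev 𝒜.Lloc ρ Ω U x₀ _).map2 y) = (Pair.ev 𝒜.Lloc ρ Ω W x₀ _).map2 y`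
    (`resLE_ev2`).
 3. `V' := W.comap (MulAut.conj g).toMonoidHom` (`a ∈ V' ↔ g * a * g⁻¹ ∈ W`), `x := g⁻¹ • x₀`; `g • x = x₀`.
    `conj_ev2`: `(Pair.conj 𝒜.Lloc ρ g _).map2 ((Pair.ev .. W (g • x) _).map2 y) = (Pair.ev .. V' x _).map2 y`;
    `(Pair.isDense_conj ..).bijective2` : the conjugation map is injective (need `Smooth (Lloc.sub W) (rsub ρ W)`,
    it is an instance of Coh/Basic or Coh/Level).  So it is enough to see `(Pair.ev .. V' x _).map2 y = 0`.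
    (to replace `x₀` by `g • x` : state an auxiliary lemma with a variable point `x₁` and a hypothesis
    `x₁ = g • x`, then `subst`.)
 4. `V' ≤ 𝒜.D v`; `evSub_res2`: `(Pair.ev .. V' x _).map2 y = (Pair.evSub .. (𝒜.D v) V' _ x _).map2
    ((Pair.res 𝒜.Lloc F (𝒜.D v)).map2 y)` and `(Pair.res ..).map2 y = (𝒜.loc v F).map2 z = (𝒜.loc2 F z) v = 0`.
The two corollaries: restrict the injective map `(Pair.sh 𝒜.L ρ U).map2` (`sh_bijective2 𝒜.L ρ U hU`)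
to `Ш²(F) → Ш²(U,ρ)` (`LinearMap.restrict`), `FiniteDimensional.of_injective`,
`LinearMap.finrank_le_finrank_of_injective`.
-/
import Fermat.Agent.S55.B.Trans.Defs

set_option autoImplicit false

noncomputable section

namespace Fermat.Agent.S55

open Module Function

variable {p : ℕ} [Fact p.Prime]

namespace Datum

variable (𝒜 : Datum p)
variable {X : Type} [AddCommGroup X] [Module (ZMod p) X]

omit [Fact p.Prime] in
/-- a class of `H²(H; Fun(Ω, ρ))` which is trivial on `D` has trivial Shapiro components on all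
subgroups `W ≤ g D g⁻¹`. -/
theorem Sha_ev_eq_zero {k : Type} [CommRing k] {H : Type} [Group H] {Y : Type} [AddCommGroup Y]
    [Module k Y] (L : Levels H) (σ : Representation k H Y) [Smooth L σ] (Ω : Type) [MulAction H Ω]
    [Finite Ω] [L.SmoothSet Ω] (y : H2 L (Fun σ Ω)) (D : Subgroup H)
    (hy : (Pair.res L (Fun σ Ω) D).map2 y = 0) (g : H) (W : Subgroup H)
    (hW : ∀ w ∈ W, g⁻¹ * w * g ∈ D) (x₁ : Ω) (hx₁ : ∀ v ∈ W, v • x₁ = x₁) :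
    (Pair.ev L σ Ω W x₁ hx₁).map2 y = 0 := by
  obtain ⟨x, rfl⟩ : ∃ x : Ω, x₁ = g • x := ⟨g⁻¹ • x₁, by rw [smul_inv_smul]⟩
  let V' : Subgroup H := W.comap (MulAut.conj g).toMonoidHom
  have hV' : ∀ v, v ∈ V' ↔ g * v * g⁻¹ ∈ W := fun v => Iff.rfl
  have hx' : ∀ v ∈ V', v • x = x := by
    intro v hv
    have h1 := hx₁ _ ((hV' v).1 hv)
    rw [← mul_smul, inv_mul_cancel_right, mul_smul] at h1
    exact smul_left_cancel g h1
  have hV'D : V' ≤ D := by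
    intro v hv
    have h1 := hW _ ((hV' v).1 hv)
    have h2 : g⁻¹ * (g * v * g⁻¹) * g = v := by group
    rwa [h2] at h1
  have h1 := conj_ev2 L σ Ω g (fun v hv => (hV' v).1 hv) x hx₁ hx' y
  have h2 : (Pair.ev L σ Ω V' x hx').map2 y = 0 := by
    rw [← evSub_res2 L σ Ω D V' hV'D x hx', LinearMap.comp_apply, hy, map_zero]
  rw [h2] at h1
  exact (map_eq_zero_iff _ (Pair.isDense_conj L σ g hV').bijective2.1).1 h1

theorem sh_mem_ShaU (ρ : Representation (ZMod p) 𝒜.G X) [Smooth 𝒜.L ρ] (U : Subgroup 𝒜.G)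
    (hU : 𝒜.L.IsOpen U) (z : H2 𝒜.L (Fun ρ (𝒜.G ⧸ U))) (hz : z ∈ 𝒜.Sha2 (Fun ρ (𝒜.G ⧸ U))) :
    (Pair.sh 𝒜.L ρ U).map2 z ∈ 𝒜.ShaU ρ U := by
  haveI := 𝒜.finite_quotient U hU
  haveI : 𝒜.Lloc.SmoothSet (𝒜.G ⧸ U) := Levels.smoothSet_quotient' (𝒜.le U hU)
  rw [ShaU, Submodule.mem_iInf]
  intro v
  rw [Submodule.mem_iInf]
  intro g
  rw [LinearMap.mem_ker]
  have hzv : (𝒜.loc v (Fun ρ (𝒜.G ⧸ U))).map2 z = 0 := congrFun (LinearMap.mem_ker.1 hz) v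
  rw [loc, Pair.map2_comp, LinearMap.comp_apply] at hzv
  have hfix : ∀ w ∈ 𝒜.Dg v g ⊓ U, w • ((1 : 𝒜.G) : 𝒜.G ⧸ U) = ((1 : 𝒜.G) : 𝒜.G ⧸ U) :=
    fun w hw => (mem_iff_smul_coe_one U w).1 hw.2
  have h0 := Sha_ev_eq_zero 𝒜.Lloc ρ (𝒜.G ⧸ U) _ (𝒜.D v) hzv g (𝒜.Dg v g ⊓ U) (by
    rintro w ⟨⟨d, hd, rfl⟩, -⟩
    have : g⁻¹ * ((MulAut.conj g).toMonoidHom d) * g = d := by
      simp [MulAut.conj_apply, mul_assoc]
    rw [this]
    exact hd) _ hfix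
  rw [← h0, ← LinearMap.comp_apply, ← LinearMap.comp_apply, ← Pair.map2_comp, ← Pair.map2_comp]
  exact congrFun (congrArg DFunLike.coe (Pair.map2_congr rfl rfl)) z

/-- Shapiro's map restricted to the Tate-Shafarevich groups. -/
def Sha_shRestrict (ρ : Representation (ZMod p) 𝒜.G X) [Smooth 𝒜.L ρ] (U : Subgroup 𝒜.G)
    (hU : 𝒜.L.IsOpen U) : ↥(𝒜.Sha2 (Fun ρ (𝒜.G ⧸ U))) →ₗ[ZMod p] ↥(𝒜.ShaU ρ U) :=
  (Pair.sh 𝒜.L ρ U).map2.restrict (fun z hz => 𝒜.sh_mem_ShaU ρ U hU z hz)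

theorem Sha_shRestrict_injective (ρ : Representation (ZMod p) 𝒜.G X) [Smooth 𝒜.L ρ]
    (U : Subgroup 𝒜.G) (hU : 𝒜.L.IsOpen U) : Function.Injective (𝒜.Sha_shRestrict ρ U hU) := by
  intro a b hab
  apply Subtype.ext
  apply (sh_bijective2 𝒜.L ρ U hU).1
  exact congrArg Subtype.val hab

theorem finiteDimensional_Sha2_Fun (ρ : Representation (ZMod p) 𝒜.G X) [Smooth 𝒜.L ρ]
    (U : Subgroup 𝒜.G) (hU : 𝒜.L.IsOpen U) [FiniteDimensional (ZMod p) ↥(𝒜.ShaU ρ U)] :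
    FiniteDimensional (ZMod p) ↥(𝒜.Sha2 (Fun ρ (𝒜.G ⧸ U))) :=
  FiniteDimensional.of_injective _ (𝒜.Sha_shRestrict_injective ρ U hU)

theorem finrank_Sha2_Fun_le (ρ : Representation (ZMod p) 𝒜.G X) [Smooth 𝒜.L ρ]
    (U : Subgroup 𝒜.G) (hU : 𝒜.L.IsOpen U) [FiniteDimensional (ZMod p) ↥(𝒜.ShaU ρ U)] :
    finrank (ZMod p) ↥(𝒜.Sha2 (Fun ρ (𝒜.G ⧸ U))) ≤ finrank (ZMod p) ↥(𝒜.ShaU ρ U) :=
  LinearMap.finrank_le_finrank_of_injective (𝒜.Sha_shRestrict_injective ρ U hU)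

end Datum

end Fermat.Agent.S55

end
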