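/-
S55 / B / Trans / Fin  (task S55/T-Fin)
(FIN): `H¹(G, L; ρ)`, `H²(G, L; ρ)` are finite dimensional.

PROOF.
* `finiteDimensional_H2_JU`: `loc² : H²(J_U) → P²(J_U)` has kernel `Ш²(J_U)`, finite dimensional by
  `𝒜.finiteDimensional_Sha2_Fun 𝒜.mu U hU` (Sha.lean; instance from `(h.num U hU hω).2.1`), and `P²(J_U)` is finite
  dimensional (`h.finiteDimensional_P2`, Recip.lean, instance `𝒜.smooth_Fun 𝒜.mu U hU`).  A space `V` with a linear map `f` to a
  f.d. space with f.d. kernel is f.d.: e.g. `finiteDimensional_of_exact` (Coh/Numerics.lean) or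
  `Module.Finite.of_submodule_quotient`/`LinearMap.quotKerEquivRange`.
* `finiteDimensional_H2_sub`: `LinearEquiv.ofBijective _ (sh_bijective2 𝒜.L 𝒜.mu U hU)` + `Module.Finite.equiv`.
* `cofinal`: `𝒜.exists_trivial_on 𝒜.triv U hU` gives `N` open normal `≤ U`, `≤ ker ω`.
  `rsub 𝒜.mu N = Representation.trivial (ZMod p) N (ZMod p)` by `rsub_eq_trivial` (L/Duality/Triv.lean) as `𝒜.mu g = 1` for
  `g ∈ ker ω` (`Datum.mu`, `Representation.twist_apply_apply`, `MonoidHom.mem_ker`); rewrite.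
* `fin1`, `fin2`: `finiteDimensional_H1_of_cofinal`, `finiteDimensional_H2_of_cofinal` (L/Duality/Fin.lean).
-/
import Fermat.Agent.S55.B.Trans.Sha
import Fermat.Agent.S55.B.Trans.Recip
import Fermat.Agent.S55.L.Duality.Fin

set_option autoImplicit false

noncomputable section

namespace Fermat.Agent.S55

open Module Function

variable {p : ℕ} [Fact p.Prime]

namespace TransHyp

variable {𝒜 : Datum p} {n : 𝒜.ι → ℕ} (h : TransHyp 𝒜 n)

include h

omit h in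
theorem Fin_fd_of_pi {k : Type} [Field k] {ι : Type} [Finite ι] {V : Type} [AddCommGroup V] [Module k V]
    {W : ι → Type} [∀ v, AddCommGroup (W v)] [∀ v, Module k (W v)] [∀ v, FiniteDimensional k (W v)]
    (f : ∀ v, V →ₗ[k] W v) (K : Submodule k V) [FiniteDimensional k K]
    (hK : ∀ x, (∀ v, f v x = 0) → x ∈ K) : FiniteDimensional k V := by
  have h1 : LinearMap.ker (LinearMap.pi f) ≤ K := by
    intro x hx
    apply hK
    intro v
    exact congrFun (LinearMap.mem_ker.mp hx) v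
  have h2 : FiniteDimensional k (LinearMap.ker (LinearMap.pi f)) :=
    Submodule.finiteDimensional_of_le h1
  have h3 : FiniteDimensional k (V ⧸ LinearMap.ker (LinearMap.pi f)) :=
    LinearEquiv.finiteDimensional (LinearMap.pi f).quotKerEquivRange.symm
  exact Module.Finite.of_submodule_quotient (LinearMap.ker (LinearMap.pi f))

theorem finiteDimensional_H2_JU (U : Subgroup 𝒜.G) (hU : 𝒜.L.IsOpen U) (hω : U ≤ 𝒜.ω.ker) :
    FiniteDimensional (ZMod p) (H2 𝒜.L (𝒜.JU U)) := by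
  have := 𝒜.finite_quotient U hU
  have hsm : Smooth 𝒜.L (𝒜.JU U) := 𝒜.smooth_Fun 𝒜.mu U hU
  have h1 : FiniteDimensional (ZMod p) ↥(𝒜.ShaU 𝒜.mu U) := (h.num U hU hω).2.1
  have h2 : FiniteDimensional (ZMod p) ↥(𝒜.Sha2 (𝒜.JU U)) := 𝒜.finiteDimensional_Sha2_Fun 𝒜.mu U hU
  have h3 : ∀ v, FiniteDimensional (ZMod p) (H2 (𝒜.Lv v) (rsub (𝒜.JU U) (𝒜.D v))) :=
    fun v => 𝒜.finLoc2_of_localHyp n h.loc (𝒜.JU U) v
  refine Fin_fd_of_pi (k := ZMod p) (W := fun v => H2 (𝒜.Lv v) (rsub (𝒜.JU U) (𝒜.D v)))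
    (fun v => (𝒜.loc v (𝒜.JU U)).map2) (𝒜.Sha2 (𝒜.JU U)) ?_
  intro x hx
  show 𝒜.loc2 (𝒜.JU U) x = 0
  funext v
  exact hx v

theorem finiteDimensional_H2_sub (U : Subgroup 𝒜.G) (hU : 𝒜.L.IsOpen U) (hω : U ≤ 𝒜.ω.ker) :
    FiniteDimensional (ZMod p) (H2 (𝒜.L.sub U) (rsub 𝒜.mu U)) := by
  have := h.finiteDimensional_H2_JU U hU hω
  exact Module.Finite.equiv (LinearEquiv.ofBijective _ (sh_bijective2 𝒜.L 𝒜.mu U hU))

theorem cofinal (U : Subgroup 𝒜.G) (hU : 𝒜.L.IsOpen U) :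
    ∃ N : Subgroup 𝒜.G, 𝒜.L.IsOpen N ∧ N ≤ U ∧ N.Normal ∧
      FiniteDimensional (ZMod p) (H1 (𝒜.L.sub N) (Representation.trivial (ZMod p) N (ZMod p))) ∧
      FiniteDimensional (ZMod p) (H2 (𝒜.L.sub N) (Representation.trivial (ZMod p) N (ZMod p))) := by
  obtain ⟨N, hN, hNn, hNU, hNω, -⟩ := 𝒜.exists_trivial_on 𝒜.triv U hU
  have hmu : rsub 𝒜.mu N = Representation.trivial (ZMod p) N (ZMod p) := by
    apply rsub_eq_trivial
    intro g hg
    have hg' : 𝒜.ω g = 1 := MonoidHom.mem_ker.mp (hNω hg)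
    ext
    simp [Datum.mu, Representation.twist_apply_apply, hg']
  refine ⟨N, hN, hNU, hNn, ?_, ?_⟩
  · rw [← hmu]
    exact (h.num N hN hNω).1
  · rw [← hmu]
    exact h.finiteDimensional_H2_sub N hN hNω

variable {X : Type} [AddCommGroup X] [Module (ZMod p) X] [FiniteDimensional (ZMod p) X]

theorem fin1 (ρ : Representation (ZMod p) 𝒜.G X) [Smooth 𝒜.L ρ] :
    FiniteDimensional (ZMod p) (H1 𝒜.L ρ) :=
  finiteDimensional_H1_of_cofinal 𝒜.L (fun U hU => by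
    obtain ⟨N, h1, h2, h3, h4, _⟩ := h.cofinal U hU
    exact ⟨N, h1, h2, h3, h4⟩) ρ

theorem fin2 (ρ : Representation (ZMod p) 𝒜.G X) [Smooth 𝒜.L ρ] :
    FiniteDimensional (ZMod p) (H2 𝒜.L ρ) :=
  finiteDimensional_H2_of_cofinal 𝒜.L h.cofinal ρ

end TransHyp

end Fermat.Agent.S55

end
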