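/-
S55 / B / Trans / Orbits  (task S55/T-Orbits)     Mathlib only.
Orbit representatives of a subgroup `D ≤ H` acting on an `H`-set `Ω`, in the form needed by
`evSub_pi_bijective*` (Coh/Mackey.lean), and the class equation.

PROOFS.  `existsUnique_rep`: `j = ⟦w⟧` (`Quotient.mk''`, `MulAction.orbitRel_apply`, `Quotient.out_eq'`,
`MulAction.mem_orbit_iff`); the action of `↥D` on `Ω` is `(d : ↥D) • w = (d : H) • w` (`Subgroup.smul_def`).
`index_stab`: `(stab D Ω j).subgroupOf D = MulAction.stabilizer ↥D (rep D Ω j)` (ext) and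
`MulAction.index_stabilizer` (`(stabilizer G b).index = (orbit G b).ncard`).
`sum_index_stab`: `MulAction.selfEquivSigmaOrbits' ↥D Ω : Ω ≃ Σ j : orbitRel.Quotient, j.orbit`
or `selfEquivSigmaOrbits : Ω ≃ Σ j, orbit ↥D j.out`; `Nat.card_sigma`, `Nat.card_coe_set_eq`.
-/
import Mathlib

set_option autoImplicit false

noncomputable section

namespace Fermat.Agent.S55.Trans

variable {H : Type} [Group H] (D : Subgroup H) (Ω : Type) [MulAction H Ω]

/-- the set of `D`-orbits. -/
abbrev Orb : Type := MulAction.orbitRel.Quotient ↥D Ω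

/-- a representative. -/
def rep (j : Orb D Ω) : Ω := Quotient.out j

/-- its stabiliser in `D`, as a subgroup of `H`. -/
def stab (j : Orb D Ω) : Subgroup H := MulAction.stabilizer H (rep D Ω j) ⊓ D

theorem mem_stab_iff (j : Orb D Ω) (a : H) :
    a ∈ stab D Ω j ↔ a ∈ D ∧ a • rep D Ω j = rep D Ω j := by
  unfold stab
  rw [Subgroup.mem_inf, MulAction.mem_stabilizer_iff, and_comm]

theorem stab_le (j : Orb D Ω) : stab D Ω j ≤ D := inf_le_right

theorem existsUnique_rep (w : Ω) : ∃! j : Orb D Ω, ∃ d ∈ D, d • rep D Ω j = w := by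
  refine ⟨Quotient.mk'' w, ?_, ?_⟩
  · have h : (MulAction.orbitRel ↥D Ω) (Quotient.out (Quotient.mk'' w : Orb D Ω)) w :=
      Quotient.exact' (Quotient.out_eq' (Quotient.mk'' w : Orb D Ω))
    have h' : (MulAction.orbitRel ↥D Ω) w (Quotient.out (Quotient.mk'' w : Orb D Ω)) :=
      (MulAction.orbitRel ↥D Ω).symm h
    rw [MulAction.orbitRel_apply, MulAction.mem_orbit_iff] at h'
    obtain ⟨d, hd⟩ := h'
    exact ⟨d.1, d.2, hd⟩
  · rintro j ⟨d, hd, rfl⟩
    have h1 : (Quotient.mk'' (rep D Ω j) : Orb D Ω) = j := Quotient.out_eq' j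
    rw [← h1]
    apply Quotient.sound'
    rw [MulAction.orbitRel_apply, MulAction.mem_orbit_iff]
    refine ⟨⟨d, hd⟩⁻¹, ?_⟩
    have h2 : d • rep D Ω (Quotient.mk'' (rep D Ω j)) =
        (⟨d, hd⟩ : ↥D) • rep D Ω (Quotient.mk'' (rep D Ω j)) := rfl
    rw [h2, inv_smul_smul, h1]

theorem index_stab (j : Orb D Ω) :
    ((stab D Ω j).subgroupOf D).index = Nat.card (MulAction.orbit ↥D (rep D Ω j)) := by
  have h : (stab D Ω j).subgroupOf D = MulAction.stabilizer ↥D (rep D Ω j) := by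
    ext d
    rw [Subgroup.mem_subgroupOf, mem_stab_iff, MulAction.mem_stabilizer_iff]
    exact ⟨fun h => h.2, fun h => ⟨d.2, h⟩⟩
  rw [h, MulAction.index_stabilizer, Nat.card_coe_set_eq]

theorem sum_index_stab [Finite Ω] [Fintype (Orb D Ω)] :
    ∑ j : Orb D Ω, ((stab D Ω j).subgroupOf D).index = Nat.card Ω := by
  rw [Nat.card_congr (MulAction.selfEquivSigmaOrbits ↥D Ω), Nat.card_sigma]
  exact Finset.sum_congr rfl fun j _ => index_stab D Ω j

/-- the stabiliser of a point of `H ⧸ U` lies in every normal subgroup containing `U`. -/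
theorem stabilizer_quotient_le (U K : Subgroup H) [K.Normal] (hUK : U ≤ K) (w : H ⧸ U) :
    MulAction.stabilizer H w ≤ K := by
  obtain ⟨g, rfl⟩ := QuotientGroup.mk_surjective w
  intro a ha
  rw [MulAction.mem_stabilizer_iff, MulAction.Quotient.smul_mk, QuotientGroup.eq] at ha
  have h1 : (a • g)⁻¹ * g ∈ K := hUK ha
  have h2 : g⁻¹ * a⁻¹ * g ∈ K := by
    have e : (a • g)⁻¹ * g = g⁻¹ * a⁻¹ * g := by rw [smul_eq_mul, mul_inv_rev]
    rwa [e] at h1
  have h3 := (inferInstance : K.Normal).conj_mem _ h2 g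
  have e : g * (g⁻¹ * a⁻¹ * g) * g⁻¹ = a⁻¹ := by group
  rw [e] at h3
  exact K.inv_mem_iff.1 h3

end Fermat.Agent.S55.Trans

end
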